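import Fermat.Agent.MatrixInvariants.Main
import Mathlib.Data.Fintype.BigOperators

/-!
# Invariants of vectors and covectors

Scalars show that an invariant has equal degrees in the vectors and in the covectors. Its
coefficients, symmetric in each of the two, then give an invariant of the matrices `v_a φ_b`, and
a trace of a word in these is a product of pairings.
-/

set_option autoImplicit false

noncomputable section

namespace FA.WeylFFT

open MvPolynomial
open FA.MatrixInvariants (expOf expOf_eq monomial_expOf IsConjInv evalAt gen traceAlg isConjInv_iff)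
open FA.SchurWeylDuality (exists_perm_of_map_eq)

variable {K : Type*} [Field K] {α β ι : Type*} [Fintype α] [Fintype β] [Fintype ι]

/-- The value at vectors and covectors. -/
def evalPair (v : α → ι → K) (φ : β → ι → K) :
    MvPolynomial ((α × ι) ⊕ (β × ι)) K →+* K :=
  eval (Sum.elim (fun p => v p.1 p.2) fun p => φ p.1 p.2)

/-- The pairing of a covector with a vector. -/
def pairPoly (K : Type*) [Field K] {α β ι : Type*} [Fintype ι] (p : β × α) :
    MvPolynomial ((α × ι) ⊕ (β × ι)) K :=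
  ∑ i, X (Sum.inr (p.1, i)) * X (Sum.inl (p.2, i))

variable (K α β ι) in
/-- The algebra of pairings. -/
def pairAlg : Subalgebra K (MvPolynomial ((α × ι) ⊕ (β × ι)) K) :=
  Algebra.adjoin K (Set.range (pairPoly K (α := α) (β := β) (ι := ι)))

variable [DecidableEq ι]

/-- Invariance under the general linear group. -/
def IsGLInv (P : MvPolynomial ((α × ι) ⊕ (β × ι)) K) : Prop :=
  ∀ (g : GL ι K) (v : α → ι → K) (φ : β → ι → K),
    evalPair (fun a => (g : Matrix ι ι K).mulVec (v a))
      (fun b => Matrix.vecMul (φ b) (↑g⁻¹ : Matrix ι ι K)) P = evalPair v φ P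

omit [Fintype α] [Fintype β] in
theorem isGLInv_of_mem {P : MvPolynomial ((α × ι) ⊕ (β × ι)) K} (hP : P ∈ pairAlg K α β ι) :
    IsGLInv P := fun g v φ => by
  induction hP using Algebra.adjoin_induction with
  | mem x hx =>
    obtain ⟨⟨b, a⟩, rfl⟩ := hx
    simp only [pairPoly, evalPair, map_sum, map_mul, eval_X, Sum.elim_inr, Sum.elim_inl]
    show dotProduct (Matrix.vecMul (φ b) (↑g⁻¹ : Matrix ι ι K))
      ((g : Matrix ι ι K).mulVec (v a)) = dotProduct (φ b) (v a)
    rw [Matrix.dotProduct_mulVec, Matrix.vecMul_vecMul, Units.inv_mul, Matrix.vecMul_one]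
  | algebraMap r => simp [evalPair]
  | add x y _ _ hx hy => rw [map_add, map_add, hx, hy]
  | mul x y _ _ hx hy => rw [map_mul, map_mul, hx, hy]

/-! ### Symmetric coefficients -/

/-- The exponent of a pair of sequences. -/
def bexp {N : ℕ} (p : (Fin N → α × ι) × (Fin N → β × ι)) : ((α × ι) ⊕ (β × ι)) →₀ ℕ :=
  expOf (Sum.inl ∘ p.1) + expOf (Sum.inr ∘ p.2)

omit [Fintype α] [Fintype β] [Fintype ι] [DecidableEq ι] in
theorem monomial_bexp {N : ℕ} (p : (Fin N → α × ι) × (Fin N → β × ι)) (a : K) :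
    monomial (bexp p) a = C a * ∏ i, X (Sum.inl (p.1 i)) * X (Sum.inr (p.2 i)) := by
  rw [bexp, ← mul_one a, ← monomial_mul, monomial_expOf, monomial_expOf, C_1, one_mul, mul_one,
    mul_assoc, Finset.prod_mul_distrib]
  rfl

theorem expOf_comp {σ σ' : Type*} {N : ℕ} (f : σ → σ') (q : Fin N → σ) :
    expOf (f ∘ q) = Finsupp.mapDomain f (expOf q) := by
  rw [expOf, expOf, Finsupp.mapDomain_finsetSum]
  exact Finset.sum_congr rfl fun i _ => by simp [Finsupp.mapDomain_single]

omit [Fintype α] [Fintype β] [Fintype ι] [DecidableEq ι] in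
theorem bexp_eq_iff {N : ℕ} {p r : (Fin N → α × ι) × (Fin N → β × ι)} (h : bexp p = bexp r) :
    ∃ π π' : Equiv.Perm (Fin N), r = (p.1 ∘ π, p.2 ∘ π') := by
  classical
  have hl : expOf p.1 = expOf r.1 := Finsupp.ext fun x => by
    have := DFunLike.congr_fun h (Sum.inl x)
    simpa [bexp, expOf_comp, Finsupp.mapDomain_apply Sum.inl_injective,
      Finsupp.mapDomain_of_notMem_range] using this
  have hr : expOf p.2 = expOf r.2 := Finsupp.ext fun x => by
    have := DFunLike.congr_fun h (Sum.inr x)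
    simpa [bexp, expOf_comp, Finsupp.mapDomain_apply Sum.inr_injective,
      Finsupp.mapDomain_of_notMem_range] using this
  rw [expOf_eq, expOf_eq] at hl hr
  obtain ⟨π, hπ⟩ := exists_perm_of_map_eq p.1 r.1 (Multiset.toFinsupp.injective hl)
  obtain ⟨π', hπ'⟩ := exists_perm_of_map_eq p.2 r.2 (Multiset.toFinsupp.injective hr)
  exact ⟨π, π', Prod.ext hπ hπ'⟩

theorem exists_expOf {σ : Type*} [Fintype σ] {N : ℕ} (ν : σ →₀ ℕ) (h : ∑ x, ν x = N) :
    ∃ q : Fin N → σ, expOf q = ν := by
  classical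
  obtain ⟨l, hl⟩ := Quot.exists_rep (Finsupp.toMultiset ν)
  have hlen : l.length = N := by
    have := congrArg Multiset.card hl
    rw [Finsupp.card_toMultiset, Finsupp.sum_fintype _ _ fun _ => rfl] at this
    exact this.trans h
  refine ⟨fun i => l.get (Fin.cast hlen.symm i), ?_⟩
  rw [expOf_eq, Fin.univ_val_map]
  apply Multiset.toFinsupp.symm.injective
  rw [AddEquiv.symm_apply_apply]
  show ((List.ofFn fun i => l.get (Fin.cast hlen.symm i) : List σ) : Multiset σ) = _
  subst hlen
  rw [show (List.ofFn fun i => l.get (Fin.cast rfl i)) = l from List.ofFn_get l]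
  exact hl

/-- A function of pairs of sequences symmetric in each. -/
def IsBisym {N : ℕ} (c : (Fin N → α × ι) × (Fin N → β × ι) → K) : Prop :=
  ∀ p (π π' : Equiv.Perm (Fin N)), c (p.1 ∘ π, p.2 ∘ π') = c p

/-- The pairing of the coefficients with a table. -/
def tableSum {N : ℕ} {R : Type*} [CommRing R] [Algebra K R]
    (c : (Fin N → α × ι) × (Fin N → β × ι) → K) (F : α × ι → β × ι → R) : R :=
  ∑ p, algebraMap K R (c p) * ∏ i, F (p.1 i) (p.2 i)

variable [CharZero K]

omit [DecidableEq ι] in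
theorem exists_bisym {N : ℕ} {P : MvPolynomial ((α × ι) ⊕ (β × ι)) K}
    (hP : ∀ μ ∈ P.support, (∑ x, μ (Sum.inl x) = N) ∧ ∑ y, μ (Sum.inr y) = N) :
    ∃ c : (Fin N → α × ι) × (Fin N → β × ι) → K, IsBisym c ∧
      P = tableSum c fun x y => X (Sum.inl x) * X (Sum.inr y) := by
  classical
  set fib : (((α × ι) ⊕ (β × ι)) →₀ ℕ) → Finset ((Fin N → α × ι) × (Fin N → β × ι)) :=
    fun μ => Finset.univ.filter fun p => bexp p = μ
  refine ⟨fun p => coeff (bexp p) P / (fib (bexp p)).card, fun p π π' => ?_, ?_⟩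
  · have e : bexp (p.1 ∘ π, p.2 ∘ π') = bexp p := congrArg₂ (· + ·)
      (Equiv.sum_comp π fun i => Finsupp.single (Sum.inl (p.1 i)) 1)
      (Equiv.sum_comp π' fun i => Finsupp.single (Sum.inr (p.2 i)) 1)
    simp only [e]
  · ext μ
    simp only [tableSum, MvPolynomial.algebraMap_eq, ← monomial_bexp, coeff_sum, coeff_monomial]
    rw [← Finset.sum_filter,
      Finset.sum_congr rfl fun p (hp : p ∈ fib μ) => by rw [(Finset.mem_filter.1 hp).2],
      Finset.sum_const, nsmul_eq_mul]
    by_cases h0 : coeff μ P = 0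
    · simp [h0]
    · have hne : (fib μ).Nonempty := by
        obtain ⟨h1, h2⟩ := hP μ (mem_support_iff.2 h0)
        obtain ⟨q, hq⟩ := exists_expOf (Finsupp.equivFunOnFinite.symm fun x => μ (Sum.inl x)) h1
        obtain ⟨r, hr⟩ := exists_expOf (Finsupp.equivFunOnFinite.symm fun y => μ (Sum.inr y)) h2
        refine ⟨(q, r), Finset.mem_filter.2 ⟨Finset.mem_univ _, ?_⟩⟩
        ext (x | y) <;> simp [bexp, expOf_comp, hq, hr,
          Finsupp.mapDomain_apply Sum.inl_injective, Finsupp.mapDomain_apply Sum.inr_injective,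
          Finsupp.mapDomain_of_notMem_range]
      rw [mul_div_cancel₀ _ (Nat.cast_ne_zero.2 hne.card_pos.ne')]

omit [DecidableEq ι] in
theorem bisym_unique {N : ℕ} {c c' : (Fin N → α × ι) × (Fin N → β × ι) → K} (hc : IsBisym c)
    (hc' : IsBisym c') (h : tableSum c (fun x y => (X (Sum.inl x) * X (Sum.inr y) :
      MvPolynomial ((α × ι) ⊕ (β × ι)) K)) = tableSum c' fun x y => X (Sum.inl x) * X (Sum.inr y)) :
    c = c' := by
  classical
  funext p
  have hp := congrArg (coeff (bexp p)) h
  simp only [tableSum, MvPolynomial.algebraMap_eq, ← monomial_bexp, coeff_sum, coeff_monomial,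
    ← Finset.sum_filter] at hp
  set F := Finset.univ.filter fun r : (Fin N → α × ι) × (Fin N → β × ι) => bexp r = bexp p
  have e : ∀ d : (Fin N → α × ι) × (Fin N → β × ι) → K, IsBisym d →
      ∑ r ∈ F, d r = (F.card : K) * d p := fun d hd => by
    have hd' : ∀ r ∈ F, d r = d p := fun r hr => by
      obtain ⟨π, π', rfl⟩ := bexp_eq_iff (Finset.mem_filter.1 hr).2.symm
      exact hd p π π'
    rw [Finset.sum_congr rfl hd', Finset.sum_const, nsmul_eq_mul]
  rw [e c hc, e c' hc'] at hp
  have hF0 : F.card ≠ 0 := Finset.card_ne_zero_of_mem (a := p) (by simp [F])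
  exact mul_left_cancel₀ (Nat.cast_ne_zero.2 hF0 : (F.card : K) ≠ 0) hp

/-- The transformed coefficients. -/
def coeffAct {N : ℕ} (g h : Matrix ι ι K) (c : (Fin N → α × ι) × (Fin N → β × ι) → K)
    (p : (Fin N → α × ι) × (Fin N → β × ι)) : K :=
  ∑ u : Fin N → ι, ∑ w : Fin N → ι, c (fun i => ((p.1 i).1, u i), fun i => ((p.2 i).1, w i)) *
    ∏ i, g (u i) (p.1 i).2 * h (p.2 i).2 (w i)

omit [Fintype α] [Fintype β] [DecidableEq ι] [CharZero K] in
theorem isBisym_coeffAct {N : ℕ} (g h : Matrix ι ι K)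
    {c : (Fin N → α × ι) × (Fin N → β × ι) → K} (hc : IsBisym c) :
    IsBisym (coeffAct g h c) := fun p π π' => by
  simp only [coeffAct, Function.comp_apply, Finset.prod_mul_distrib]
  refine (Fintype.sum_equiv (Equiv.arrowCongr π.symm (Equiv.refl ι)) _ _ fun u => ?_).symm
  refine Fintype.sum_equiv (Equiv.arrowCongr π'.symm (Equiv.refl ι)) _ _ fun w => ?_
  show _ = c ((fun i => ((p.1 i).1, u i)) ∘ π, (fun i => ((p.2 i).1, w i)) ∘ π') *
    ((∏ i, g (u (π i)) (p.1 (π i)).2) * ∏ i, h (p.2 (π' i)).2 (w (π' i)))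
  rw [hc (fun i => ((p.1 i).1, u i), fun i => ((p.2 i).1, w i)) π π',
    Equiv.prod_comp π fun i => g (u i) (p.1 i).2, Equiv.prod_comp π' fun i => h (p.2 i).2 (w i)]

/-- Splitting the labels from the indices. -/
def splitPair {α β ι : Type*} (N : ℕ) : (Fin N → α × ι) × (Fin N → β × ι) ≃
    ((Fin N → α) × (Fin N → β)) × (Fin N → ι) × (Fin N → ι) where
  toFun p := ((fun i => (p.1 i).1, fun i => (p.2 i).1), (fun i => (p.1 i).2, fun i => (p.2 i).2))
  invFun s := (fun i => (s.1.1 i, s.2.1 i), fun i => (s.1.2 i, s.2.2 i))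

omit [DecidableEq ι] [CharZero K] in
theorem tableSum_act {N : ℕ} (g h : Matrix ι ι K)
    (c : (Fin N → α × ι) × (Fin N → β × ι) → K) (F : α × ι → β × ι → K) :
    tableSum c (fun x y => ∑ k, ∑ l, g x.2 k * F (x.1, k) (y.1, l) * h l y.2) =
      tableSum (coeffAct g h c) F := by
  simp only [tableSum, Algebra.algebraMap_self, RingHom.id_apply]
  rw [Fintype.sum_equiv (splitPair N) _ (fun s => c ((splitPair N).symm s) * ∏ i,
      ∑ k, ∑ l, g (s.2.1 i) k * F (s.1.1 i, k) (s.1.2 i, l) * h l (s.2.2 i))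
    fun p => by rw [Equiv.symm_apply_apply]; rfl,
    Fintype.sum_equiv (splitPair N) (fun p => coeffAct g h c p * ∏ i, F (p.1 i) (p.2 i))
      (fun s => (∑ u : Fin N → ι, ∑ w : Fin N → ι, c ((splitPair N).symm (s.1, (u, w))) *
        ∏ i, g (u i) (s.2.1 i) * h (s.2.2 i) (w i)) * ∏ i, F (s.1.1 i, s.2.1 i) (s.1.2 i, s.2.2 i))
      fun p => rfl]
  simp only [Fintype.sum_prod_type, Fintype.prod_sum, Finset.mul_sum, Finset.sum_mul,
    Finset.prod_mul_distrib]
  refine Finset.sum_congr rfl fun a _ => Finset.sum_congr rfl fun b _ => ?_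
  have comm4 : ∀ G : (Fin N → ι) → (Fin N → ι) → (Fin N → ι) → (Fin N → ι) → K,
      ∑ u, ∑ w, ∑ k, ∑ l, G u w k l = ∑ k, ∑ l, ∑ u, ∑ w, G u w k l := fun G => by
    rw [Finset.sum_congr rfl fun u _ => Finset.sum_comm, Finset.sum_comm]
    exact Finset.sum_congr rfl fun k _ => by
      rw [Finset.sum_congr rfl fun u _ => Finset.sum_comm, Finset.sum_comm]
  rw [comm4]
  refine Finset.sum_congr rfl fun k _ => Finset.sum_congr rfl fun l _ =>
    Finset.sum_congr rfl fun u _ => Finset.sum_congr rfl fun w _ => ?_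
  ring

/-- **The invariants with equal degrees.** -/
theorem mem_of_bidegree {N : ℕ} {P : MvPolynomial ((α × ι) ⊕ (β × ι)) K}
    (hP : ∀ μ ∈ P.support, (∑ x, μ (Sum.inl x) = N) ∧ ∑ y, μ (Sum.inr y) = N)
    (hinv : IsGLInv P) : P ∈ pairAlg K α β ι := by
  classical
  obtain ⟨c, hc, rfl⟩ := exists_bisym hP
  have hcact : ∀ g : GL ι K,
      coeffAct (g : Matrix ι ι K) (↑g⁻¹ : Matrix ι ι K) c = c := fun g => by
    refine bisym_unique (isBisym_coeffAct _ _ hc) hc (MvPolynomial.funext fun z => ?_)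
    have h := hinv g (fun a i => z (Sum.inl (a, i))) (fun b i => z (Sum.inr (b, i)))
    simp only [evalPair, tableSum, map_sum, map_mul, map_prod, MvPolynomial.algebraMap_eq, eval_C,
      eval_X, Sum.elim_inl, Sum.elim_inr] at h
    have h' := tableSum_act (g : Matrix ι ι K) (↑g⁻¹ : Matrix ι ι K) c
      fun x y => z (Sum.inl x) * z (Sum.inr y)
    simp only [tableSum, Algebra.algebraMap_self, RingHom.id_apply] at h'
    simp only [tableSum, map_sum, map_mul, map_prod, MvPolynomial.algebraMap_eq, eval_C, eval_X]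
    rw [← h', ← h]
    refine Finset.sum_congr rfl fun p _ => congrArg _ (Finset.prod_congr rfl fun i _ => ?_)
    simp only [Matrix.mulVec, Matrix.vecMul, dotProduct, Finset.sum_mul, Finset.mul_sum]
    rw [Finset.sum_comm]
    exact Finset.sum_congr rfl fun k _ => Finset.sum_congr rfl fun l _ => by ring
  set θ : MvPolynomial ((α × β) × ι × ι) K →ₐ[K] MvPolynomial ((α × ι) ⊕ (β × ι)) K :=
    aeval fun v => X (Sum.inl (v.1.1, v.2.1)) * X (Sum.inr (v.1.2, v.2.2))
  set T : MvPolynomial ((α × β) × ι × ι) K :=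
    tableSum c fun x y => X ((x.1, y.1), x.2, y.2)
  have hT : IsConjInv T := fun g A => by
    have h' := tableSum_act (g : Matrix ι ι K) (↑g⁻¹ : Matrix ι ι K) c
      fun x y => A (x.1, y.1) x.2 y.2
    rw [hcact] at h'
    simp only [tableSum, Algebra.algebraMap_self, RingHom.id_apply] at h'
    simp only [T, evalAt, tableSum, map_sum, map_mul, map_prod, MvPolynomial.algebraMap_eq, eval_C,
      eval_X]
    rw [← h']
    refine Finset.sum_congr rfl fun p _ => congrArg _ (Finset.prod_congr rfl fun i _ => ?_)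
    simp only [Matrix.mul_apply, Finset.sum_mul]
    exact Finset.sum_comm
  have hθT : θ T = tableSum c fun x y => X (Sum.inl x) * X (Sum.inr y) := by
    simp [θ, T, tableSum, map_sum, map_prod]
  rw [← hθT]
  have hmem : θ T ∈ (traceAlg K (α × β) ι).map θ := ⟨T, (isConjInv_iff T).1 hT, rfl⟩
  rw [traceAlg, AlgHom.map_adjoin] at hmem
  refine Algebra.adjoin_le ?_ hmem
  rintro _ ⟨_, ⟨w, rfl⟩, rfl⟩
  show θ ((w.map (gen K ι)).prod).trace ∈ pairAlg K α β ι
  rw [show θ ((w.map (gen K ι)).prod).trace =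
    (θ.toRingHom.mapMatrix (w.map (gen K ι)).prod).trace by simp [Matrix.trace, map_sum],
    map_list_prod, List.map_map]
  set ev : α → ι → MvPolynomial ((α × ι) ⊕ (β × ι)) K := fun a i => X (Sum.inl (a, i))
  set eφ : β → ι → MvPolynomial ((α × ι) ⊕ (β × ι)) K := fun b i => X (Sum.inr (b, i))
  have hgen : ∀ t : α × β, θ.toRingHom.mapMatrix (gen K ι t) =
      Matrix.vecMulVec (ev t.1) (eφ t.2) := fun t => by
    ext i j
    simp [θ, gen, ev, eφ, Matrix.vecMulVec_apply]
  rw [show θ.toRingHom.mapMatrix ∘ gen K ι = fun t : α × β => Matrix.vecMulVec (ev t.1) (eφ t.2)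
    from _root_.funext hgen]
  have hdot : ∀ b a, dotProduct (eφ b) (ev a) ∈ pairAlg K α β ι := fun b a =>
    Algebra.subset_adjoin ⟨(b, a), rfl⟩
  cases w with
  | nil =>
    simp only [List.map_nil, List.prod_nil, Matrix.trace_one]
    exact natCast_mem _ _
  | cons t w =>
    have hprod : ∀ (w : List (α × β)) (t : α × β), ∃ r ∈ pairAlg K α β ι, ∃ b,
        ((t :: w).map fun t => Matrix.vecMulVec (ev t.1) (eφ t.2)).prod =
          r • Matrix.vecMulVec (ev t.1) (eφ b) := fun w => by
      induction w with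
      | nil => exact fun t => ⟨1, one_mem _, t.2, by simp⟩
      | cons u w ih =>
        intro t
        obtain ⟨r, hr, b, e⟩ := ih u
        refine ⟨r * dotProduct (eφ t.2) (ev u.1), mul_mem hr (hdot _ _), b, ?_⟩
        rw [List.map_cons, List.prod_cons, e, Matrix.mul_smul, Matrix.vecMulVec_mul_vecMulVec,
          Matrix.vecMulVec_smul, smul_smul]
    obtain ⟨r, hr, b, e⟩ := hprod w t
    rw [e, Matrix.trace_smul, Matrix.trace_vecMulVec, smul_eq_mul, dotProduct_comm]
    exact mul_mem hr (hdot _ _)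

omit [DecidableEq ι] [CharZero K] in
theorem scale_monomial (s t : K) (μ : ((α × ι) ⊕ (β × ι)) →₀ ℕ) (a : K) :
    aeval (Sum.elim (fun x => C s * X (Sum.inl x)) fun y => C t * X (Sum.inr y))
      (monomial μ a) = monomial μ (a * (s ^ (∑ x, μ (Sum.inl x)) * t ^ (∑ y, μ (Sum.inr y)))) := by
  rw [aeval_monomial, monomial_eq, Finsupp.prod_fintype _ _ fun v => pow_zero _,
    Finsupp.prod_fintype _ _ fun v => pow_zero _, Fintype.prod_sum_type, Fintype.prod_sum_type]
  simp only [Sum.elim_inl, Sum.elim_inr, mul_pow, Finset.prod_mul_distrib, C_mul, map_pow,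
    Finset.prod_pow_eq_pow_sum, MvPolynomial.algebraMap_eq]
  ring

omit [Fintype α] [Fintype β] [CharZero K] in
theorem isGLInv_component {P : MvPolynomial ((α × ι) ⊕ (β × ι)) K} [Infinite K] (hinv : IsGLInv P)
    (N : ℕ) : IsGLInv (homogeneousComponent N P) := by
  intro g v φ
  set S := Finset.range (P.totalDegree + 1)
  by_cases hN : N ∈ S
  swap
  · rw [homogeneousComponent_eq_zero _ _ (by simpa [S, Nat.lt_succ_iff] using hN)]
    simp
  have hq : ∀ (v : α → ι → K) (φ : β → ι → K) (t : K), (∑ M ∈ S, Polynomial.C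
      (evalPair v φ (homogeneousComponent M P)) * Polynomial.X ^ M).eval t =
        evalPair (t • v) (t • φ) P := fun v φ t => by
    conv_rhs => rw [← sum_homogeneousComponent (φ := P), map_sum]
    rw [Polynomial.eval_finsetSum]
    refine Finset.sum_congr rfl fun M _ => ?_
    rw [Polynomial.eval_mul, Polynomial.eval_C, Polynomial.eval_pow, Polynomial.eval_X, mul_comm]
    refine (MatrixInvariants.eval_smul_homogeneous (homogeneousComponent_isHomogeneous M P) t
      (Sum.elim (fun p => v p.1 p.2) fun p => φ p.1 p.2)).symm.trans ?_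
    refine congrArg (fun z => eval z (homogeneousComponent M P)) (_root_.funext fun z => ?_)
    rcases z with x | y <;> rfl
  have hpoly : (∑ M ∈ S, Polynomial.C (evalPair (fun a => (g : Matrix ι ι K).mulVec (v a))
      (fun b => Matrix.vecMul (φ b) (↑g⁻¹ : Matrix ι ι K)) (homogeneousComponent M P)) *
        Polynomial.X ^ M) =
      ∑ M ∈ S, Polynomial.C (evalPair v φ (homogeneousComponent M P)) * Polynomial.X ^ M := by
    refine Polynomial.funext fun t => ?_
    rw [hq, hq, ← hinv g (t • v) (t • φ)]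
    refine congrArg₂ (fun a b => evalPair a b P) (_root_.funext fun a => ?_)
      (_root_.funext fun b => ?_)
    · simp [Matrix.mulVec_smul]
    · simp [Matrix.smul_vecMul]
  have := congrArg (fun q => Polynomial.coeff q N) hpoly
  simpa [Polynomial.finsetSum_coeff, Finset.sum_ite_eq, hN] using this

omit [DecidableEq ι] in
theorem degree_eq_add (μ : ((α × ι) ⊕ (β × ι)) →₀ ℕ) :
    Finsupp.weight (1 : (α × ι) ⊕ (β × ι) → ℕ) μ =
      (∑ x, μ (Sum.inl x)) + ∑ y, μ (Sum.inr y) := by
  simp [Finsupp.weight_apply, Finsupp.sum_fintype]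

/-- **Weyl's theorem.** -/
theorem isGLInv_iff (P : MvPolynomial ((α × ι) ⊕ (β × ι)) K) :
    IsGLInv P ↔ P ∈ pairAlg K α β ι := by
  refine ⟨fun hinv => ?_, isGLInv_of_mem⟩
  have hbal : ∀ μ ∈ P.support, ∑ x, μ (Sum.inl x) = ∑ y, μ (Sum.inr y) := fun μ hμ => by
    classical
    have h2 : (2 : K) ≠ 0 := two_ne_zero
    set g : GL ι K := Units.map (algebraMap K (Matrix ι ι K)).toMonoidHom (Units.mk0 2 h2)
    have e : aeval (Sum.elim (fun x => C (2 : K) * X (Sum.inl x))
        fun y => C (1 : K) * X (Sum.inr y)) P =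
      aeval (Sum.elim (fun x => C (1 : K) * X (Sum.inl x))
        fun y => C (2 : K) * X (Sum.inr y)) P := by
      refine MvPolynomial.funext fun z => ?_
      have h := hinv g (fun a i => z (Sum.inl (a, i))) (fun b i => 2 * z (Sum.inr (b, i)))
      simp only [evalPair] at h
      rw [← aeval_eq_eval z, ← AlgHom.comp_apply, ← AlgHom.comp_apply, comp_aeval, comp_aeval,
        aeval_eq_eval]
      refine Eq.trans ?_ (h.trans ?_) <;>
      · refine congrArg (fun z => eval z P) (_root_.funext fun v => ?_)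
        rcases v with ⟨a, i⟩ | ⟨b, i⟩ <;>
          simp [g, aeval_eq_eval, Matrix.algebraMap_eq_diagonal, Matrix.mulVec_diagonal,
            Matrix.vecMul_diagonal] <;>
          field_simp
    have hcoeff := congrArg (coeff μ) e
    rw [P.as_sum, map_sum, map_sum] at hcoeff
    simp only [scale_monomial, coeff_sum, coeff_monomial, Finset.sum_ite_eq', hμ, if_true, one_pow,
      mul_one, one_mul] at hcoeff
    have h3 := mul_left_cancel₀ (mem_support_iff.1 hμ) hcoeff
    exact Nat.pow_right_injective le_rfl (by exact_mod_cast h3)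
  rw [← sum_homogeneousComponent (φ := P)]
  refine sum_mem fun M _ => ?_
  refine mem_of_bidegree (N := M / 2) (fun μ hμ => ?_) (isGLInv_component hinv M)
  have h1 := mem_support_iff.1 hμ
  rw [coeff_homogeneousComponent] at h1
  obtain ⟨hd, hne⟩ := ite_ne_right_iff.1 h1
  have h2 := hbal μ (mem_support_iff.2 hne)
  have h3 := degree_eq_add μ
  have h4 : Finsupp.weight (1 : (α × ι) ⊕ (β × ι) → ℕ) μ = μ.degree := by
    simp [Finsupp.weight_apply, Finsupp.degree_eq_sum, Finsupp.sum_fintype]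
  omega

end FA.WeylFFT
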